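import Mathlib

/-!
# Isotropy of ternary diagonal forms and the Hilbert symbol over `ℚ`, as explicit formulas

`symOdd p a b` and `symTwo a b` are the Hilbert symbols of two nonzero integers at an odd prime
`p`, resp. at `2`, written additively (`0` means that `a x² + b y² = z²` has a nontrivial
solution).
-/

set_option autoImplicit false

namespace Fermat.Agent.TwoAdic.CFT

/-- The form `a x² + b y² + c z²` has a nontrivial zero over `F`. -/
def Isotropic (F : Type*) [Field F] (a b c : F) : Prop :=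
  ∃ x y z : F, (x ≠ 0 ∨ y ≠ 0 ∨ z ≠ 0) ∧ a * x ^ 2 + b * y ^ 2 + c * z ^ 2 = 0

/-- The prime-to-`p` part of an integer. -/
def unitPart (p : ℕ) (a : ℤ) : ℤ := a / (p : ℤ) ^ padicValInt p a

/-- The Legendre symbol, written additively. -/
def legBit (p : ℕ) [Fact p.Prime] (u : ℤ) : ZMod 2 := if legendreSym p u = -1 then 1 else 0

/-- `(u - 1) / 2` modulo `2`, for odd `u`. -/
def epsBit (u : ℤ) : ZMod 2 := if u % 4 = 3 then 1 else 0

/-- `(u ^ 2 - 1) / 8` modulo `2`, for odd `u`. -/
def omegaBit (u : ℤ) : ZMod 2 := if u % 8 = 3 ∨ u % 8 = 5 then 1 else 0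

/-- The Hilbert symbol at an odd prime, written additively. -/
def symOdd (p : ℕ) [Fact p.Prime] (a b : ℤ) : ZMod 2 :=
  (padicValInt p a : ZMod 2) * (padicValInt p b : ZMod 2) * epsBit p
    + (padicValInt p b : ZMod 2) * legBit p (unitPart p a)
    + (padicValInt p a : ZMod 2) * legBit p (unitPart p b)

/-- The Hilbert symbol at `2`, written additively. -/
def symTwo (a b : ℤ) : ZMod 2 :=
  epsBit (unitPart 2 a) * epsBit (unitPart 2 b)
    + (padicValInt 2 a : ZMod 2) * omegaBit (unitPart 2 b)
    + (padicValInt 2 b : ZMod 2) * omegaBit (unitPart 2 a)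

end Fermat.Agent.TwoAdic.CFT
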