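import Fermat.Agent.TwoAdic.CFT.Hilbert.Defs

/-!
# Ternary diagonal forms over `ℚ_p`, `p` odd

`isotropic_odd_iff`: for nonzero integers `a x² + b y² = z²` has a nontrivial solution in `ℚ_p`
if and only if `symOdd p a b = 0`; `isotropic_of_units`: forms with unit coefficients are
isotropic.
-/

set_option autoImplicit false

namespace Fermat.Agent.TwoAdic.CFT

section Field

variable {F : Type*} [Field F]

theorem Isotropic.swap₁₂ {a b c : F} (h : Isotropic F a b c) : Isotropic F b a c := by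
  obtain ⟨x, y, z, hne, h⟩ := h
  refine ⟨y, x, z, ?_, by linear_combination h⟩
  tauto

theorem Isotropic.swap₂₃ {a b c : F} (h : Isotropic F a b c) : Isotropic F a c b := by
  obtain ⟨x, y, z, hne, h⟩ := h
  refine ⟨x, z, y, ?_, by linear_combination h⟩
  tauto

theorem isotropic_comm₁₂ {a b c : F} : Isotropic F a b c ↔ Isotropic F b a c :=
  ⟨Isotropic.swap₁₂, Isotropic.swap₁₂⟩

theorem isotropic_comm₂₃ {a b c : F} : Isotropic F a b c ↔ Isotropic F a c b :=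
  ⟨Isotropic.swap₂₃, Isotropic.swap₂₃⟩

theorem isotropic_smul_iff {k : F} (hk : k ≠ 0) (a b c : F) :
    Isotropic F (k * a) (k * b) (k * c) ↔ Isotropic F a b c := by
  constructor
  · rintro ⟨x, y, z, hne, h⟩
    refine ⟨x, y, z, hne, (mul_left_cancel₀ hk ?_)⟩
    linear_combination h
  · rintro ⟨x, y, z, hne, h⟩
    exact ⟨x, y, z, hne, by linear_combination k * h⟩

theorem isotropic_mul_sq_iff {s t r : F} (hs : s ≠ 0) (ht : t ≠ 0) (hr : r ≠ 0) (a b c : F) :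
    Isotropic F (a * s ^ 2) (b * t ^ 2) (c * r ^ 2) ↔ Isotropic F a b c := by
  constructor
  · rintro ⟨x, y, z, hne, h⟩
    exact ⟨s * x, t * y, r * z, by simpa [hs, ht, hr] using hne, by linear_combination h⟩
  · rintro ⟨x, y, z, hne, h⟩
    refine ⟨x / s, y / t, z / r, by simpa [hs, ht, hr] using hne, ?_⟩
    field_simp
    linear_combination h

end Field

variable {p : ℕ} [Fact p.Prime]

omit [Fact p.Prime] in
theorem unitPart_spec (a : ℤ) : (p : ℤ) ^ padicValInt p a * unitPart p a = a :=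
  Int.mul_ediv_cancel' (padicValInt_dvd a)

theorem not_dvd_unitPart {a : ℤ} (ha : a ≠ 0) : ¬ (p : ℤ) ∣ unitPart p a := by
  rintro ⟨k, hk⟩
  have h : (p : ℤ) ^ (padicValInt p a + 1) ∣ a := by
    refine ⟨k, ?_⟩
    have h1 := unitPart_spec (p := p) a
    rw [hk] at h1
    linear_combination -h1
  rw [padicValInt_dvd_iff] at h
  omega

theorem intCast_zmod_ne_zero {u : ℤ} (hu : ¬ (p : ℤ) ∣ u) : (u : ZMod p) ≠ 0 := by
  rwa [Ne, ZMod.intCast_zmod_eq_zero_iff_dvd]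

theorem not_dvd_mul' {u w : ℤ} (hu : ¬ (p : ℤ) ∣ u) (hw : ¬ (p : ℤ) ∣ w) :
    ¬ (p : ℤ) ∣ u * w := fun h =>
  ((Nat.prime_iff_prime_int.mp Fact.out).dvd_mul.mp h).elim hu hw

theorem legBit_eq_zero_iff {u : ℤ} (hu : ¬ (p : ℤ) ∣ u) :
    legBit p u = 0 ↔ IsSquare (u : ZMod p) := by
  rw [← legendreSym.eq_one_iff p (intCast_zmod_ne_zero hu), legBit]
  rcases legendreSym.eq_one_or_neg_one p (intCast_zmod_ne_zero hu) with h | h <;> simp [h]

theorem legBit_mul {u w : ℤ} (hu : ¬ (p : ℤ) ∣ u) (hw : ¬ (p : ℤ) ∣ w) :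
    legBit p (u * w) = legBit p u + legBit p w := by
  simp only [legBit, legendreSym.mul]
  rcases legendreSym.eq_one_or_neg_one p (intCast_zmod_ne_zero hu) with h | h <;>
    rcases legendreSym.eq_one_or_neg_one p (intCast_zmod_ne_zero hw) with h' | h' <;>
      simp [h, h'] <;> decide

theorem legBit_one : legBit p 1 = 0 := by simp [legBit]

theorem legBit_neg_one (hp : p ≠ 2) : legBit p (-1) = epsBit p := by
  have hodd : p % 2 = 1 := (Nat.Prime.eq_two_or_odd (Fact.out : p.Prime)).resolve_left hp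
  have hor : p % 4 = 1 ∨ p % 4 = 3 := by omega
  simp only [legBit, epsBit, legendreSym.at_neg_one hp]
  rcases hor with h | h
  · rw [ZMod.χ₄_nat_one_mod_four h]
    simp only [reduceCtorEq, if_false]
    rw [if_neg (by omega)]
  · rw [ZMod.χ₄_nat_three_mod_four h]
    simp only [if_true]
    rw [if_pos (by omega)]

theorem norm_intCast_unit {u : ℤ} (hu : ¬ (p : ℤ) ∣ u) : ‖(u : ℚ_[p])‖ = 1 :=
  le_antisymm (Padic.norm_int_le_one u)
    (not_lt.mp fun h => hu (Padic.norm_intCast_lt_one_iff.mp h))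

theorem intCast_padic_ne_zero {u : ℤ} (hu : ¬ (p : ℤ) ∣ u) : (u : ℚ_[p]) ≠ 0 :=
  Int.cast_ne_zero.mpr fun h => hu (h ▸ dvd_zero _)

/-- An integer prime to `p` which is a square modulo `p` is a square in `ℚ_p`. -/
theorem isSquare_padic_of_zmod (hp : p ≠ 2) {u : ℤ} (hu : ¬ (p : ℤ) ∣ u)
    (h : IsSquare (u : ZMod p)) : IsSquare (u : ℚ_[p]) := by
  classical
  obtain ⟨r, hr⟩ := h
  set F : Polynomial ℤ_[p] := Polynomial.X ^ 2 - Polynomial.C (u : ℤ_[p]) with hF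
  set r' : ℤ := (r.val : ℤ)
  have hr' : (r' : ZMod p) = r := by simp [r']
  have hd : (p : ℤ) ∣ r' ^ 2 - u := by
    rw [← ZMod.intCast_zmod_eq_zero_iff_dvd]
    push_cast
    rw [hr', hr]
    ring
  have hrn : ¬ (p : ℤ) ∣ 2 * r' := by
    refine not_dvd_mul' (fun h2 => hp ?_) (fun h2 => hu ?_)
    · exact (Nat.prime_dvd_prime_iff_eq Fact.out Nat.prime_two).mp (by exact_mod_cast h2)
    · have := dvd_sub (dvd_mul_of_dvd_left h2 r') hd
      rwa [show r' * r' - (r' ^ 2 - u) = u by ring] at this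
  have hder : ‖F.derivative.aeval ((r' : ℤ) : ℤ_[p])‖ = 1 := by
    have : F.derivative.aeval ((r' : ℤ) : ℤ_[p]) = ((2 * r' : ℤ) : ℤ_[p]) := by simp [hF, one_add_one_eq_two]
    rw [this, PadicInt.norm_intCast_eq_padic_norm, norm_intCast_unit hrn]
  have hev : ‖F.aeval ((r' : ℤ) : ℤ_[p])‖ < 1 := by
    have : F.aeval ((r' : ℤ) : ℤ_[p]) = ((r' ^ 2 - u : ℤ) : ℤ_[p]) := by simp [hF]
    rw [this, PadicInt.norm_int_lt_one_iff_dvd]
    exact hd
  obtain ⟨z, hz, -⟩ := hensels_lemma (F := F) (a := ((r' : ℤ) : ℤ_[p]))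
    (by rw [hder, one_pow]; exact hev)
  refine ⟨(z : ℚ_[p]), ?_⟩
  have hz' : z ^ 2 - (u : ℤ_[p]) = 0 := by simpa [hF] using hz
  have := congrArg (fun w : ℤ_[p] => (w : ℚ_[p])) hz'
  push_cast at this
  linear_combination -this

/-- A form with unit coefficients is isotropic at an odd prime. -/
theorem isotropic_of_units (hp : p ≠ 2) {a b c : ℤ} (ha : ¬ (p : ℤ) ∣ a) (hb : ¬ (p : ℤ) ∣ b)
    (hc : ¬ (p : ℤ) ∣ c) : Isotropic ℚ_[p] (a : ℚ_[p]) b c := by
  classical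
  have hodd : p % 2 = 1 := (Nat.Prime.eq_two_or_odd (Fact.out : p.Prime)).resolve_left hp
  have key : ∃ x y : ZMod p, (a : ZMod p) * x ^ 2 + (b : ZMod p) * y ^ 2 + c = 0 := by
    obtain ⟨x, y, h⟩ := FiniteField.exists_root_sum_quadratic
      (f := Polynomial.C (a : ZMod p) * Polynomial.X ^ 2)
      (g := Polynomial.C (b : ZMod p) * Polynomial.X ^ 2 + Polynomial.C (c : ZMod p))
      (Polynomial.degree_C_mul_X_pow 2 (intCast_zmod_ne_zero ha))
      (by
        rw [Polynomial.degree_add_C] <;>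
          rw [Polynomial.degree_C_mul_X_pow 2 (intCast_zmod_ne_zero hb)] <;> simp)
      (by simpa using hodd)
    refine ⟨x, y, ?_⟩
    simp at h
    linear_combination h
  obtain ⟨x, y, hxy⟩ := key
  have one : ∀ {a b : ℤ} (x y : ZMod p), ¬ (p : ℤ) ∣ a → x ≠ 0 →
      (a : ZMod p) * x ^ 2 + (b : ZMod p) * y ^ 2 + c = 0 →
      Isotropic ℚ_[p] (a : ℚ_[p]) b c := by
    intro a b x y ha hx h
    set w : ℤ := -a * (c + b * (y.val : ℤ) ^ 2)
    have hw : (w : ZMod p) = ((a : ZMod p) * x) ^ 2 := by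
      simp [w]
      linear_combination (-(a : ZMod p)) * h
    have hwn : ¬ (p : ℤ) ∣ w := by
      rw [← ZMod.intCast_zmod_eq_zero_iff_dvd, hw]
      exact pow_ne_zero _ (mul_ne_zero (intCast_zmod_ne_zero ha) hx)
    obtain ⟨s, hs⟩ := isSquare_padic_of_zmod hp hwn (hw ▸ IsSquare.sq _)
    have ha0 := intCast_padic_ne_zero ha
    refine ⟨s / a, (y.val : ℚ_[p]), 1, by simp, ?_⟩
    push_cast [w] at hs
    field_simp
    linear_combination -hs
  by_cases hx : x = 0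
  · refine (one (a := b) (b := a) y x hb ?_ (by linear_combination hxy)).swap₁₂
    rintro rfl
    exact intCast_zmod_ne_zero hc (by simpa [hx] using hxy)
  · exact one x y ha hx hxy

/-- If `v` is not a square mod `p`, then `v y² - z²` has the norm of a square. -/
theorem norm_binary_of_nonsquare {v : ℤ} (hv : ¬ (p : ℤ) ∣ v) (hns : ¬ IsSquare (v : ZMod p))
    (y z : ℚ_[p]) : ‖(v : ℚ_[p]) * y ^ 2 - z ^ 2‖ = (max ‖y‖ ‖z‖) ^ 2 := by
  by_cases hne : ‖y‖ = ‖z‖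
  · rcases eq_or_ne y 0 with rfl | hy
    · obtain rfl : z = 0 := by simpa using hne.symm
      simp
    have hy' : ‖y‖ ≠ 0 := norm_ne_zero_iff.mpr hy
    set t : ℤ_[p] := ⟨z / y, by simp [← hne, hy']⟩ with ht
    have h1 : ‖(v : ℤ_[p]) - t ^ 2‖ = 1 := by
      refine le_antisymm (PadicInt.norm_le_one _) (not_lt.mp fun h => hns ⟨PadicInt.toZMod t, ?_⟩)
      have hmem : (v : ℤ_[p]) - t ^ 2 ∈ RingHom.ker (PadicInt.toZMod (p := p)) := by
        rw [PadicInt.ker_toZMod, IsLocalRing.mem_maximalIdeal, PadicInt.mem_nonunits]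
        exact h
      rw [RingHom.mem_ker, map_sub, map_pow, map_intCast, sub_eq_zero] at hmem
      rw [hmem, sq]
    have h2 : ‖(v : ℚ_[p]) - (z / y) ^ 2‖ = 1 := by
      rw [PadicInt.norm_def] at h1
      push_cast [ht] at h1
      exact h1
    rw [show (v : ℚ_[p]) * y ^ 2 - z ^ 2 = ((v : ℚ_[p]) - (z / y) ^ 2) * y ^ 2 by field_simp,
      norm_mul, h2, one_mul, norm_pow, ← hne, max_self]
  · have hvy : ‖(v : ℚ_[p]) * y ^ 2‖ = ‖y‖ ^ 2 := by
      rw [norm_mul, norm_intCast_unit hv, one_mul, norm_pow]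
    have hz : ‖-z ^ 2‖ = ‖z‖ ^ 2 := by rw [norm_neg, norm_pow]
    rw [sub_eq_add_neg, Padic.add_eq_max_of_ne, hvy, hz]
    · rcases le_total ‖y‖ ‖z‖ with h | h
      · rw [max_eq_right h, max_eq_right (pow_le_pow_left₀ (norm_nonneg _) h 2)]
      · rw [max_eq_left h, max_eq_left (pow_le_pow_left₀ (norm_nonneg _) h 2)]
    · rw [hvy, hz]
      exact fun h => hne ((pow_left_inj₀ (norm_nonneg _) (norm_nonneg _) two_ne_zero).mp h)

theorem isotropic_mixed_iff (hp : p ≠ 2) {u v : ℤ} (hu : ¬ (p : ℤ) ∣ u) (hv : ¬ (p : ℤ) ∣ v) :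
    Isotropic ℚ_[p] ((p : ℚ_[p]) * u) v (-1) ↔ IsSquare (v : ZMod p) := by
  constructor
  · rintro ⟨x, y, z, hne, h⟩
    by_contra hns
    have hp0 : (p : ℚ_[p]) ≠ 0 := Nat.cast_ne_zero.mpr (Fact.out : p.Prime).ne_zero
    have hn := norm_binary_of_nonsquare hv hns y z
    rw [show (v : ℚ_[p]) * y ^ 2 - z ^ 2 = -((p : ℚ_[p]) * u * x ^ 2) by linear_combination h,
      norm_neg, norm_mul, norm_mul, norm_intCast_unit hu, mul_one, norm_pow] at hn
    obtain ⟨w, hw⟩ : ∃ w : ℚ_[p], max ‖y‖ ‖z‖ = ‖w‖ :=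
      (max_choice ‖y‖ ‖z‖).elim (fun h => ⟨y, h⟩) (fun h => ⟨z, h⟩)
    rw [hw] at hn
    rcases eq_or_ne x 0 with rfl | hx
    · have hw0 : ‖w‖ = 0 := by simpa using hn.symm
      rw [hw0] at hw
      have hy0 : ‖y‖ = 0 := le_antisymm (hw ▸ le_max_left _ _) (norm_nonneg _)
      have hz0 : ‖z‖ = 0 := le_antisymm (hw ▸ le_max_right _ _) (norm_nonneg _)
      simp_all
    · have hwne : w ≠ 0 := by
        rintro rfl
        simp [hx, (Fact.out : p.Prime).ne_zero] at hn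
      rw [Padic.norm_p, Padic.norm_eq_zpow_neg_valuation hx,
        Padic.norm_eq_zpow_neg_valuation hwne, ← zpow_neg_one, ← zpow_natCast, ← zpow_natCast,
        ← zpow_mul, ← zpow_mul, ← zpow_add₀ (Nat.cast_ne_zero.mpr (Fact.out : p.Prime).ne_zero)]
        at hn
      have := zpow_right_injective₀ (by exact_mod_cast (Fact.out : p.Prime).pos)
        (by exact_mod_cast (Fact.out : p.Prime).ne_one) hn
      push_cast at this
      omega
  · intro h
    obtain ⟨s, hs⟩ := isSquare_padic_of_zmod hp hv h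
    exact ⟨0, 1, s, by simp, by linear_combination hs⟩

theorem isotropic_ramified_iff (hp : p ≠ 2) {u v : ℤ} (hu : ¬ (p : ℤ) ∣ u)
    (hv : ¬ (p : ℤ) ∣ v) :
    Isotropic ℚ_[p] ((p : ℚ_[p]) * u) ((p : ℚ_[p]) * v) (-1) ↔
      IsSquare ((-u * v : ℤ) : ZMod p) := by
  have hp0 : (p : ℚ_[p]) ≠ 0 := Nat.cast_ne_zero.mpr (Fact.out : p.Prime).ne_zero
  have hv0 := intCast_padic_ne_zero hv
  have huv : ¬ (p : ℤ) ∣ -u * v := not_dvd_mul' (by rwa [dvd_neg]) hv
  rw [← isotropic_mixed_iff hp hv huv,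
    ← isotropic_smul_iff (k := -(v : ℚ_[p]) / p) (by simp [hp0, hv0]) ((p : ℚ_[p]) * u),
    show -(v : ℚ_[p]) / p * (p * u) = -((u : ℚ_[p]) * v) * 1 ^ 2 by field_simp,
    show -(v : ℚ_[p]) / p * (p * v) = -1 * (v : ℚ_[p]) ^ 2 by field_simp,
    show -(v : ℚ_[p]) / p * -1 = (p : ℚ_[p]) * v * (p : ℚ_[p])⁻¹ ^ 2 by field_simp,
    isotropic_mul_sq_iff one_ne_zero hv0 (inv_ne_zero hp0), isotropic_comm₂₃, isotropic_comm₁₂]
  push_cast
  rw [neg_mul]

/-- `a x² + b y² = z²` over `ℚ_p`, `p` odd. -/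
theorem isotropic_odd_iff (hp : p ≠ 2) {a b : ℤ} (ha : a ≠ 0) (hb : b ≠ 0) :
    Isotropic ℚ_[p] (a : ℚ_[p]) (b : ℚ_[p]) (-1) ↔ symOdd p a b = 0 := by
  have hu := not_dvd_unitPart (p := p) ha
  have hv := not_dvd_unitPart (p := p) hb
  have hp0 : (p : ℚ_[p]) ≠ 0 := Nat.cast_ne_zero.mpr (Fact.out : p.Prime).ne_zero
  have ha' : (a : ℚ_[p]) = (p : ℚ_[p]) ^ padicValInt p a * unitPart p a := by
    conv_lhs => rw [← unitPart_spec (p := p) a]
    push_cast; ring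
  have hb' : (b : ℚ_[p]) = (p : ℚ_[p]) ^ padicValInt p b * unitPart p b := by
    conv_lhs => rw [← unitPart_spec (p := p) b]
    push_cast; ring
  rw [ha', hb', symOdd]
  generalize unitPart p a = u, unitPart p b = v, padicValInt p a = i, padicValInt p b = j at hu hv
  have strip : ∀ (k l : ℕ) (x y : ℚ_[p]),
      Isotropic ℚ_[p] ((p : ℚ_[p]) ^ (2 * k) * x) ((p : ℚ_[p]) ^ (2 * l) * y) (-1) ↔
        Isotropic ℚ_[p] x y (-1) := fun k l x y => by
    rw [← isotropic_mul_sq_iff (pow_ne_zero k hp0) (pow_ne_zero l hp0) one_ne_zero x y (-1)]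
    rw [← pow_mul, ← pow_mul, mul_comm k 2, mul_comm l 2, mul_comm x, mul_comm y, one_pow, mul_one]
  have e2 : (2 : ZMod 2) = 0 := rfl
  have h1 : ¬ (p : ℤ) ∣ (-1 : ℤ) := fun h =>
    (Fact.out : p.Prime).not_dvd_one (by exact_mod_cast dvd_neg.mp h)
  obtain ⟨k, rfl | rfl⟩ := Nat.even_or_odd' i <;>
    obtain ⟨l, rfl | rfl⟩ := Nat.even_or_odd' j <;>
    simp only [pow_succ, mul_assoc ((p : ℚ_[p]) ^ _) (p : ℚ_[p]), strip, Nat.cast_add,
      Nat.cast_mul, Nat.cast_ofNat, Nat.cast_one, e2, zero_mul, zero_add, add_zero, one_mul]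
  · simpa using isotropic_of_units hp hu hv h1
  · rw [isotropic_comm₁₂]
    exact (isotropic_mixed_iff hp hv hu).trans (legBit_eq_zero_iff hu).symm
  · exact (isotropic_mixed_iff hp hu hv).trans (legBit_eq_zero_iff hv).symm
  · rw [isotropic_ramified_iff hp hu hv,
      ← legBit_eq_zero_iff (not_dvd_mul' (by rwa [dvd_neg]) hv),
      legBit_mul (by rwa [dvd_neg]) hv, ← neg_one_mul u, legBit_mul h1 hu, legBit_neg_one hp]

/-- A form with `p`-adic unit coefficients is isotropic. -/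
theorem symOdd_eq_zero_of_not_dvd {a b : ℤ} (ha : ¬ (p : ℤ) ∣ a) (hb : ¬ (p : ℤ) ∣ b) :
    symOdd p a b = 0 := by
  simp [symOdd, padicValInt.eq_zero_of_not_dvd ha, padicValInt.eq_zero_of_not_dvd hb]

end Fermat.Agent.TwoAdic.CFT
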