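import Fermat.Agent.TwoAdic.CFT.Hilbert.Defs

/-!
# The Hilbert symbol at `2`

Squares among the units of `ℤ_2`, and `a x² + b y² = z²` has a nontrivial solution over `ℚ_2`
exactly when `symTwo a b = 0`.
-/

set_option autoImplicit false

namespace Fermat.Agent.TwoAdic.CFT

open Polynomial

theorem norm_natCast_eight : ‖((8 : ℕ) : ℤ_[2])‖ = 1 / 8 := by
  rw [show (8 : ℕ) = 2 ^ 3 from rfl, Nat.cast_pow, norm_pow, PadicInt.norm_p]
  norm_num

/-- A `2`-adic integer congruent to `1` modulo `8` is a square. -/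
theorem exists_sq_eq_of_eight_dvd {u : ℤ_[2]} (h : (8 : ℤ_[2]) ∣ u - 1) : ∃ w : ℤ_[2], w ^ 2 = u := by
  obtain ⟨d, hd⟩ := h
  have h2 : ‖((2 : ℕ) : ℤ_[2])‖ = 1 / 2 := by rw [PadicInt.norm_p]; norm_num
  have hn : ‖Polynomial.eval (1 : ℤ_[2]) (X ^ 2 - C u)‖ <
      ‖Polynomial.eval (1 : ℤ_[2]) (derivative (X ^ 2 - C u))‖ ^ 2 := by
    have e1 : Polynomial.eval (1 : ℤ_[2]) (X ^ 2 - C u) = -(((8 : ℕ) : ℤ_[2]) * d) := by
      simp only [eval_sub, eval_pow, eval_X, eval_C, one_pow]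
      rw [Nat.cast_ofNat, ← hd]; ring
    have e2 : Polynomial.eval (1 : ℤ_[2]) (derivative (X ^ 2 - C u)) = ((2 : ℕ) : ℤ_[2]) := by
      simp [one_add_one_eq_two]
    rw [e1, e2, norm_neg, norm_mul, h2, norm_natCast_eight]
    calc (1 / 8 : ℝ) * ‖d‖ ≤ 1 / 8 * 1 := by gcongr; exact PadicInt.norm_le_one d
      _ < _ := by norm_num
  obtain ⟨z, hz, -⟩ := hensels_lemma (F := X ^ 2 - C u) (a := (1 : ℤ_[2])) (by simpa using hn)
  exact ⟨z, sub_eq_zero.1 (by simpa using hz)⟩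

/-- An odd integer congruent to `1` modulo `8` is a nonzero square in `ℚ_2`. -/
theorem exists_sq_eq_intCast {u : ℤ} (h : u % 8 = 1) :
    ∃ w : ℚ_[2], w ≠ 0 ∧ w ^ 2 = (u : ℚ_[2]) := by
  obtain ⟨d, hd⟩ : (8 : ℤ) ∣ u - 1 := by omega
  have hdvd : (8 : ℤ_[2]) ∣ (u : ℤ_[2]) - 1 := ⟨(d : ℤ_[2]), by
    have := congrArg (Int.cast : ℤ → ℤ_[2]) hd
    push_cast at this
    exact this⟩
  obtain ⟨w, hw⟩ := exists_sq_eq_of_eight_dvd hdvd
  have hw' : (w : ℚ_[2]) ^ 2 = (u : ℚ_[2]) := by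
    rw [← PadicInt.coe_pow, hw, PadicInt.coe_intCast]
  refine ⟨w, fun h0 => ?_, hw'⟩
  rw [h0, zero_pow two_ne_zero, eq_comm, Int.cast_eq_zero] at hw'
  omega

/-- An odd integer is a square in `ℚ_2` exactly when it is `1` modulo `8`. -/
theorem isSquare_intCast_two_iff {n : ℤ} (hn : n % 2 = 1) :
    IsSquare (n : ℚ_[2]) ↔ n % 8 = 1 := by
  refine ⟨fun hsq => ?_, fun h => ?_⟩
  · obtain ⟨w, hw⟩ := hsq
    have hnorm : ‖w‖ * ‖w‖ ≤ 1 := by
      rw [← norm_mul, ← hw]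
      exact Padic.norm_int_le_one n
    have hw1 : ‖w‖ ≤ 1 := by nlinarith [norm_nonneg w]
    obtain ⟨v, hv⟩ : ∃ v : ℤ_[2], (v : ℚ_[2]) = w := ⟨⟨w, hw1⟩, rfl⟩
    have he : (n : ℤ_[2]) = v * v :=
      Subtype.coe_injective (show ((n : ℤ_[2]) : ℚ_[2]) = ((v * v : ℤ_[2]) : ℚ_[2]) by
        rw [PadicInt.coe_intCast, PadicInt.coe_mul, hv, hw])
    have he' := congrArg (PadicInt.toZModPow 3) he
    rw [map_intCast, map_mul] at he'
    have hT : ∀ i r : Fin 8, r.val % 2 = 1 →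
        ((r.val : ℕ) : ZMod (2 ^ 3)) = ((i.val : ℕ) : ZMod (2 ^ 3)) * (i.val : ℕ) → r.val = 1 := by
      decide
    obtain ⟨r, hr, hr1⟩ : ∃ r : Fin 8, (r.val : ℤ) = n % 8 ∧
        ((r.val : ℕ) : ZMod (2 ^ 3)) = (n : ZMod (2 ^ 3)) := by
      refine ⟨⟨(n % 8).toNat, by omega⟩, Int.toNat_of_nonneg (by omega), ?_⟩
      rw [← Int.cast_natCast, Int.toNat_of_nonneg (by omega), ZMod.intCast_eq_intCast_iff']
      norm_num
    have := hT ⟨(PadicInt.toZModPow 3 v).val, ZMod.val_lt (n := 2 ^ 3) _⟩ r (by omega)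
      (by rw [hr1, he']; simp)
    omega
  · obtain ⟨w, -, hw⟩ := exists_sq_eq_intCast h
    exact ⟨w, by rw [← hw, pow_two]⟩

/-- Square factors do not change isotropy. -/
theorem isotropic_mul_sq {F : Type*} [Field F] (a b c : F) {s t : F} (hs : s ≠ 0) (ht : t ≠ 0) :
    Isotropic F (a * s ^ 2) (b * t ^ 2) c ↔ Isotropic F a b c := by
  constructor
  · rintro ⟨x, y, z, hne, he⟩
    refine ⟨s * x, t * y, z, by simpa [hs, ht] using hne, ?_⟩
    rw [← he]; ring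
  · rintro ⟨x, y, z, hne, he⟩
    refine ⟨x / s, y / t, z, by simpa [hs, ht] using hne, ?_⟩
    rw [← he, mul_assoc, mul_assoc, ← mul_pow, ← mul_pow, mul_div_cancel₀ _ hs, mul_div_cancel₀ _ ht]

/-- The symbol of `2 ^ e r` and `2 ^ f s` for `e, f < 2` and odd residues `r, s` modulo `8`. -/
private def twoBit (e f r s : ℕ) : ℕ :=
  ((if r % 4 = 3 then 1 else 0) * (if s % 4 = 3 then 1 else 0)
    + e * (if s = 3 ∨ s = 5 then 1 else 0) + f * (if r = 3 ∨ r = 5 then 1 else 0)) % 2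

/-- A small value `a x² + b y²` which is a square. -/
private def twoHit (a b : ℕ) : Bool :=
  (List.range 4).any fun x => (List.range 4).any fun y => (List.range 3).any fun k =>
    decide ((a * x ^ 2 + b * y ^ 2) % (4 ^ k * 8) = 4 ^ k)

/-- No primitive solution of `a x² + b y² = z²` modulo `16`. -/
private def twoMiss (a b : ℕ) : Bool :=
  [0, 1, 4, 9].all fun X => [0, 1, 4, 9].all fun Y => [0, 1, 4, 9].all fun Z =>
    decide ((X = 1 ∨ Y = 1 ∨ Z = 1) → (a * X + b * Y) % 16 ≠ Z)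

private theorem two_table :
    ([0, 1].all fun e => [0, 1].all fun f => [1, 3, 5, 7].all fun r => [1, 3, 5, 7].all fun s =>
      if twoBit e f r s = 0 then twoHit (2 ^ e * r) (2 ^ f * s)
      else twoMiss (2 ^ e * r) (2 ^ f * s)) = true := by
  decide

private theorem isotropic_of_hit {a b : ℕ} (h : twoHit a b = true) :
    Isotropic ℚ_[2] (a : ℚ_[2]) (b : ℚ_[2]) (-1) := by
  simp only [twoHit, List.any_eq_true, List.mem_range, decide_eq_true_eq] at h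
  obtain ⟨x, -, y, -, k, -, h⟩ := h
  set N := a * x ^ 2 + b * y ^ 2 with hN
  have hd : 4 ^ k ∣ N := by
    have h0 : N % 4 ^ k = 0 := by
      rw [← Nat.mod_mod_of_dvd N (dvd_mul_right (4 ^ k) 8), h, Nat.mod_self]
    exact Nat.dvd_of_mod_eq_zero h0
  obtain ⟨m, hm⟩ := hd
  rw [hm, Nat.mul_mod_mul_left] at h
  have hm1 : m % 8 = 1 := by simpa using h
  obtain ⟨w, hw0, hw⟩ := exists_sq_eq_intCast (u := (m : ℤ)) (by omega)
  refine ⟨x, y, 2 ^ k * w, Or.inr (Or.inr (mul_ne_zero (pow_ne_zero _ two_ne_zero) hw0)), ?_⟩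
  have e : (a : ℚ_[2]) * (x : ℚ_[2]) ^ 2 + (b : ℚ_[2]) * (y : ℚ_[2]) ^ 2 = (4 : ℚ_[2]) ^ k * m := by
    exact_mod_cast hN.symm.trans hm
  rw [e, mul_pow, hw, ← pow_mul, mul_comm k 2, pow_mul, show (2 : ℚ_[2]) ^ 2 = 4 by norm_num]
  push_cast
  ring

private theorem not_isotropic_of_miss {a b : ℕ} (h : twoMiss a b = true) :
    ¬ Isotropic ℚ_[2] (a : ℚ_[2]) (b : ℚ_[2]) (-1) := by
  classical
  rintro ⟨x, y, z, hne, he⟩
  obtain ⟨w, hw0, hwx, hwy, hwz, hwm⟩ : ∃ w : ℚ_[2], w ≠ 0 ∧ ‖x‖ ≤ ‖w‖ ∧ ‖y‖ ≤ ‖w‖ ∧ ‖z‖ ≤ ‖w‖ ∧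
      (w = x ∨ w = y ∨ w = z) := by
    obtain ⟨w, hwm, hmax⟩ := ({x, y, z} : Finset ℚ_[2]).exists_max_image (fun t => ‖t‖) ⟨x, by simp⟩
    refine ⟨w, fun h0 => ?_, hmax x (by simp), hmax y (by simp), hmax z (by simp), by simpa using hwm⟩
    have hx := hmax x (by simp)
    have hy := hmax y (by simp)
    have hz := hmax z (by simp)
    simp only [h0, norm_zero, norm_le_zero_iff] at hx hy hz
    simp [hx, hy, hz] at hne
  have hle : ∀ t : ℚ_[2], ‖t‖ ≤ ‖w‖ → ‖t / w‖ ≤ 1 := fun t ht => by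
    rw [norm_div, div_le_one (norm_pos_iff.2 hw0)]; exact ht
  obtain ⟨X, hX⟩ : ∃ X : ℤ_[2], (X : ℚ_[2]) = x / w := ⟨⟨_, hle x hwx⟩, rfl⟩
  obtain ⟨Y, hY⟩ : ∃ Y : ℤ_[2], (Y : ℚ_[2]) = y / w := ⟨⟨_, hle y hwy⟩, rfl⟩
  obtain ⟨Z, hZ⟩ : ∃ Z : ℤ_[2], (Z : ℚ_[2]) = z / w := ⟨⟨_, hle z hwz⟩, rfl⟩
  have e : (a : ℤ_[2]) * X ^ 2 + (b : ℤ_[2]) * Y ^ 2 = Z ^ 2 := Subtype.coe_injective (show
      (((a : ℤ_[2]) * X ^ 2 + (b : ℤ_[2]) * Y ^ 2 : ℤ_[2]) : ℚ_[2]) = ((Z ^ 2 : ℤ_[2]) : ℚ_[2]) by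
    push_cast
    rw [hX, hY, hZ]
    linear_combination (w⁻¹) ^ 2 * he)
  have h1 : X = 1 ∨ Y = 1 ∨ Z = 1 := by
    rcases hwm with rfl | rfl | rfl
    · exact Or.inl (Subtype.coe_injective (show (X : ℚ_[2]) = ((1 : ℤ_[2]) : ℚ_[2]) by
        rw [hX, PadicInt.coe_one, div_self hw0]))
    · exact Or.inr (Or.inl (Subtype.coe_injective (show (Y : ℚ_[2]) = ((1 : ℤ_[2]) : ℚ_[2]) by
        rw [hY, PadicInt.coe_one, div_self hw0])))
    · exact Or.inr (Or.inr (Subtype.coe_injective (show (Z : ℚ_[2]) = ((1 : ℤ_[2]) : ℚ_[2]) by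
        rw [hZ, PadicInt.coe_one, div_self hw0])))
  set sq : ℤ_[2] → ℕ := fun t => ((PadicInt.toZModPow 4 t) ^ 2).val with hsq
  have hT : ∀ t : ZMod (2 ^ 4), (t ^ 2).val ∈ [0, 1, 4, 9] := by decide
  simp only [twoMiss, List.all_eq_true, decide_eq_true_eq] at h
  refine h (sq X) (hT _) (sq Y) (hT _) (sq Z) (hT _) ?_ ?_
  · rcases h1 with rfl | rfl | rfl
    · exact Or.inl (by simp only [hsq, map_one, one_pow]; rfl)
    · exact Or.inr (Or.inl (by simp only [hsq, map_one, one_pow]; rfl))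
    · exact Or.inr (Or.inr (by simp only [hsq, map_one, one_pow]; rfl))
  · have e' := congrArg (PadicInt.toZModPow 4) e
    rw [map_add, map_mul, map_mul, map_natCast, map_natCast, map_pow, map_pow, map_pow] at e'
    have e'' := congrArg ZMod.val e'
    rw [← ZMod.natCast_zmod_val (PadicInt.toZModPow 4 X ^ 2),
      ← ZMod.natCast_zmod_val (PadicInt.toZModPow 4 Y ^ 2), ← Nat.cast_mul, ← Nat.cast_mul,
      ← Nat.cast_add, ZMod.val_natCast] at e''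
    exact e''

/-- An integer is a power of `2` times its odd part. -/
theorem eq_two_pow_mul_unitPart (a : ℤ) : a = 2 ^ padicValInt 2 a * unitPart 2 a := by
  have h : ((2 : ℕ) : ℤ) ^ padicValInt 2 a ∣ a := padicValInt_dvd a
  have := (Int.mul_ediv_cancel' h).symm
  simpa [unitPart] using this

theorem unitPart_two_emod {a : ℤ} (ha : a ≠ 0) : unitPart 2 a % 2 = 1 := by
  rcases Int.emod_two_eq_zero_or_one (unitPart 2 a) with h | h
  · obtain ⟨d, hd⟩ := Int.dvd_of_emod_eq_zero h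
    have hdvd : ((2 : ℕ) : ℤ) ^ (padicValInt 2 a + 1) ∣ a :=
      ⟨d, (eq_two_pow_mul_unitPart a).trans (by rw [hd]; push_cast; ring)⟩
    rcases (padicValInt_dvd_iff _ a).1 hdvd with h0 | h0
    · exact absurd h0 ha
    · omega
  · exact h

/-- A nonzero integer is a square times `2 ^ (v % 2)` times the residue of its odd part modulo `8`. -/
theorem exists_eq_rep_mul_sq {a : ℤ} (ha : a ≠ 0) :
    ∃ t : ℚ_[2], t ≠ 0 ∧ (a : ℚ_[2]) =
      ((2 ^ (padicValInt 2 a % 2) * (unitPart 2 a % 8).toNat : ℕ) : ℚ_[2]) * t ^ 2 := by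
  set v := padicValInt 2 a
  set u := unitPart 2 a
  have hu : u % 2 = 1 := unitPart_two_emod ha
  have hru : (u * (u % 8)) % 8 = 1 := by
    have hmod : (u * (u % 8)) % 8 = (u % 8 * (u % 8)) % 8 := by
      rw [Int.mul_emod, Int.emod_emod]
    rcases (show u % 8 = 1 ∨ u % 8 = 3 ∨ u % 8 = 5 ∨ u % 8 = 7 by omega) with h | h | h | h <;>
      rw [hmod, h] <;> norm_num
  obtain ⟨w, hw0, hw⟩ := exists_sq_eq_intCast hru
  have hr0 : ((u % 8 : ℤ) : ℚ_[2]) ≠ 0 := by exact_mod_cast (show (u % 8 : ℤ) ≠ 0 by omega)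
  refine ⟨2 ^ (v / 2) * w / ((u % 8 : ℤ) : ℚ_[2]), div_ne_zero (mul_ne_zero (pow_ne_zero _
    two_ne_zero) hw0) hr0, ?_⟩
  have hr : (((u % 8).toNat : ℕ) : ℚ_[2]) = ((u % 8 : ℤ) : ℚ_[2]) := by
    rw [← Int.cast_natCast, Int.toNat_of_nonneg (by omega)]
  conv_lhs => rw [show a = 2 ^ (v % 2 + 2 * (v / 2)) * u by
    rw [Nat.mod_add_div]; exact eq_two_pow_mul_unitPart a]
  rw [Nat.cast_mul, Nat.cast_pow, hr, div_pow, mul_pow, hw]
  push_cast
  field_simp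
  ring

private theorem symTwo_eq (a b : ℤ) : symTwo a b = (twoBit (padicValInt 2 a % 2)
    (padicValInt 2 b % 2) (unitPart 2 a % 8).toNat (unitPart 2 b % 8).toNat : ZMod 2) := by
  set u := unitPart 2 a
  set t := unitPart 2 b
  have he : ∀ u : ℤ, epsBit u = ((if (u % 8).toNat % 4 = 3 then 1 else 0 : ℕ) : ZMod 2) := fun u => by
    rw [epsBit]
    by_cases h : u % 4 = 3
    · rw [if_pos h, if_pos (by omega), Nat.cast_one]
    · rw [if_neg h, if_neg (by omega), Nat.cast_zero]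
  have ho : ∀ u : ℤ, omegaBit u =
      ((if (u % 8).toNat = 3 ∨ (u % 8).toNat = 5 then 1 else 0 : ℕ) : ZMod 2) := fun u => by
    rw [omegaBit]
    by_cases h : u % 8 = 3 ∨ u % 8 = 5
    · rw [if_pos h, if_pos (by omega), Nat.cast_one]
    · rw [if_neg h, if_neg (by omega), Nat.cast_zero]
  rw [symTwo, twoBit, ZMod.natCast_mod, he, he, ho, ho]
  push_cast [ZMod.natCast_mod]
  rfl

/-- `a x² + b y² = z²` is isotropic over `ℚ_2` iff the Hilbert symbol at `2` vanishes. -/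
theorem isotropic_two_iff (a b : ℤ) (ha : a ≠ 0) (hb : b ≠ 0) :
    Isotropic ℚ_[2] (a : ℚ_[2]) (b : ℚ_[2]) (-1) ↔ symTwo a b = 0 := by
  obtain ⟨s, hs0, hs⟩ := exists_eq_rep_mul_sq ha
  obtain ⟨t, ht0, ht⟩ := exists_eq_rep_mul_sq hb
  rw [hs, ht, isotropic_mul_sq _ _ _ hs0 ht0, symTwo_eq]
  have hu := unitPart_two_emod ha
  have hv := unitPart_two_emod hb
  set e := padicValInt 2 a % 2 with he
  set f := padicValInt 2 b % 2 with hf
  set r := (unitPart 2 a % 8).toNat with hr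
  set q := (unitPart 2 b % 8).toNat with hq
  have h := two_table
  simp only [List.all_eq_true] at h
  have hT := h e (by simp; omega) f (by simp; omega) r (by simp; omega) q (by simp; omega)
  have hbit : twoBit e f r q < 2 := Nat.mod_lt _ two_pos
  by_cases h0 : twoBit e f r q = 0
  · rw [if_pos h0] at hT
    rw [h0, Nat.cast_zero]
    exact iff_of_true (isotropic_of_hit hT) rfl
  · rw [if_neg h0] at hT
    rw [show twoBit e f r q = 1 by omega, Nat.cast_one]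
    exact iff_of_false (not_isotropic_of_miss hT) one_ne_zero

end Fermat.Agent.TwoAdic.CFT
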