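import Fermat.Agent.TwoAdic.CFT.Hilbert.Odd
import Fermat.Agent.TwoAdic.CFT.Hilbert.Two

/-!
# The product formula for Hilbert symbols over `ℚ`

`sum_symbols`: the symbols of two nonzero integers at all primes add up to the symbol at `∞`
(quadratic reciprocity and its supplements, by bilinearity).
`even_anisotropic`: for nonzero rationals the number of primes at which `a x² + b y² + c z²`
is anisotropic is even exactly if the form is isotropic over `ℝ`.
`isotropic_of_padic_units`: unit coefficients give isotropy at odd primes.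
-/

set_option autoImplicit false

namespace Fermat.Agent.TwoAdic.CFT

/-- The Hilbert symbol at any prime. -/
def symAt (p : Nat.Primes) (a b : ℤ) : ZMod 2 :=
  if (p : ℕ) = 2 then symTwo a b
  else haveI : Fact (p : ℕ).Prime := ⟨p.2⟩; symOdd (p : ℕ) a b

/-- The Hilbert symbol at the real place. -/
def sgnBit (a : ℤ) : ZMod 2 := if a < 0 then 1 else 0

theorem zmod_two_add_self (x : ZMod 2) : x + x = 0 := by revert x; decide

theorem zmod_two_eq_one {x : ZMod 2} (h : x ≠ 0) : x = 1 := by revert x h; decide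

theorem unitPart_of_not_dvd {p : ℕ} {a : ℤ} (h : ¬ (p : ℤ) ∣ a) : unitPart p a = a := by
  simp [unitPart, padicValInt.eq_zero_of_not_dvd h]

theorem unitPart_self {p : ℕ} [hp : Fact p.Prime] : unitPart p (p : ℤ) = 1 := by
  simp [unitPart, hp.out.ne_zero]

theorem unitPart_mul {p : ℕ} [hp : Fact p.Prime] {a b : ℤ} (ha : a ≠ 0) (hb : b ≠ 0) :
    unitPart p (a * b) = unitPart p a * unitPart p b := by
  refine mul_left_cancel₀ (pow_ne_zero (padicValInt p (a * b))
    (Int.natCast_ne_zero.mpr hp.out.ne_zero)) ?_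
  rw [unitPart_spec, padicValInt.mul ha hb, pow_add]
  linear_combination (-(p : ℤ) ^ padicValInt p b * unitPart p b) * unitPart_spec (p := p) a -
    a * unitPart_spec (p := p) b

theorem epsBit_mul {u w : ℤ} (hu : u % 2 = 1) (hw : w % 2 = 1) :
    epsBit (u * w) = epsBit u + epsBit w := by
  have h1 : u % 4 = 1 ∨ u % 4 = 3 := by omega
  have h2 : w % 4 = 1 ∨ w % 4 = 3 := by omega
  unfold epsBit
  rw [Int.mul_emod]
  rcases h1 with h1 | h1 <;> rcases h2 with h2 | h2 <;> rw [h1, h2] <;> decide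

theorem omegaBit_mul {u w : ℤ} (hu : u % 2 = 1) (hw : w % 2 = 1) :
    omegaBit (u * w) = omegaBit u + omegaBit w := by
  have h1 : u % 8 = 1 ∨ u % 8 = 3 ∨ u % 8 = 5 ∨ u % 8 = 7 := by omega
  have h2 : w % 8 = 1 ∨ w % 8 = 3 ∨ w % 8 = 5 ∨ w % 8 = 7 := by omega
  unfold omegaBit
  rw [Int.mul_emod]
  rcases h1 with h1 | h1 | h1 | h1 <;> rcases h2 with h2 | h2 | h2 | h2 <;> rw [h1, h2] <;> decide

theorem symOdd_comm (p : ℕ) [Fact p.Prime] (a b : ℤ) : symOdd p a b = symOdd p b a := by
  simp only [symOdd]; ring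

theorem symTwo_comm (a b : ℤ) : symTwo a b = symTwo b a := by
  simp only [symTwo]; ring

theorem symAt_comm (p : Nat.Primes) (a b : ℤ) : symAt p a b = symAt p b a := by
  unfold symAt; split
  · exact symTwo_comm a b
  · exact @symOdd_comm _ ⟨p.2⟩ a b

theorem symOdd_mul_left {p : ℕ} [Fact p.Prime] {a a' : ℤ} (ha : a ≠ 0) (ha' : a' ≠ 0) (b : ℤ) :
    symOdd p (a * a') b = symOdd p a b + symOdd p a' b := by
  simp only [symOdd, padicValInt.mul ha ha', unitPart_mul ha ha',
    legBit_mul (not_dvd_unitPart ha) (not_dvd_unitPart ha'), Nat.cast_add]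
  ring

theorem symTwo_mul_left {a a' : ℤ} (ha : a ≠ 0) (ha' : a' ≠ 0) (b : ℤ) :
    symTwo (a * a') b = symTwo a b + symTwo a' b := by
  have h1 := not_dvd_unitPart (p := 2) ha
  have h2 := not_dvd_unitPart (p := 2) ha'
  push_cast at h1 h2
  simp only [symTwo, padicValInt.mul ha ha', unitPart_mul ha ha',
    epsBit_mul (show unitPart 2 a % 2 = 1 by omega) (show unitPart 2 a' % 2 = 1 by omega),
    omegaBit_mul (show unitPart 2 a % 2 = 1 by omega) (show unitPart 2 a' % 2 = 1 by omega),
    Nat.cast_add]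
  ring

theorem symAt_mul_left (p : Nat.Primes) {a a' : ℤ} (ha : a ≠ 0) (ha' : a' ≠ 0) (b : ℤ) :
    symAt p (a * a') b = symAt p a b + symAt p a' b := by
  unfold symAt; split
  · exact symTwo_mul_left ha ha' b
  · exact @symOdd_mul_left _ ⟨p.2⟩ _ _ ha ha' b

theorem symAt_one_left (p : Nat.Primes) (b : ℤ) : symAt p 1 b = 0 := by
  have h := symAt_mul_left p one_ne_zero one_ne_zero b
  rw [one_mul, zmod_two_add_self] at h
  exact h

theorem symAt_of_eq_two {p : Nat.Primes} (h : (p : ℕ) = 2) (a b : ℤ) :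
    symAt p a b = symTwo a b := if_pos h

theorem symAt_of_ne_two {p : Nat.Primes} (h : (p : ℕ) ≠ 2) (a b : ℤ) [Fact (p : ℕ).Prime] :
    symAt p a b = symOdd (p : ℕ) a b := if_neg h

theorem symAt_eq_zero {p : Nat.Primes} (h : (p : ℕ) ≠ 2) {a b : ℤ}
    (ha : ¬ ((p : ℕ) : ℤ) ∣ a) (hb : ¬ ((p : ℕ) : ℤ) ∣ b) : symAt p a b = 0 := by
  haveI : Fact (p : ℕ).Prime := ⟨p.2⟩
  rw [symAt_of_ne_two h, symOdd_eq_zero_of_not_dvd ha hb]

theorem symAt_support_finite {a b : ℤ} (ha : a ≠ 0) (hb : b ≠ 0) :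
    (Function.support fun p : Nat.Primes => symAt p a b).Finite := by
  refine Set.Finite.of_injOn (f := fun p : Nat.Primes => (p : ℕ))
    (t := insert 2 ↑((a * b).natAbs.primeFactors)) ?_
    (Subtype.val_injective.injOn) ((Finset.finite_toSet _).insert 2)
  intro p hp
  by_contra h
  simp only [Set.mem_insert_iff, Finset.mem_coe, Nat.mem_primeFactors, not_or] at h
  refine hp (symAt_eq_zero h.1 (fun hd => h.2 ⟨p.2, ?_, ?_⟩) (fun hd => h.2 ⟨p.2, ?_, ?_⟩))
  · exact Int.natCast_dvd.mp (hd.mul_right b)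
  · simpa using mul_ne_zero ha hb
  · exact Int.natCast_dvd.mp (hd.mul_left a)
  · simpa using mul_ne_zero ha hb

theorem sgnBit_mul {a a' : ℤ} (ha : a ≠ 0) (ha' : a' ≠ 0) :
    sgnBit (a * a') = sgnBit a + sgnBit a' := by
  unfold sgnBit
  rcases lt_or_gt_of_ne ha with h | h <;> rcases lt_or_gt_of_ne ha' with h' | h'
  · rw [if_pos h, if_pos h', if_neg (mul_pos_of_neg_of_neg h h').le.not_gt]; decide
  · rw [if_pos h, if_neg h'.le.not_gt, if_pos (mul_neg_of_neg_of_pos h h')]; decide
  · rw [if_neg h.le.not_gt, if_pos h', if_pos (mul_neg_of_pos_of_neg h h')]; decide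
  · rw [if_neg h.le.not_gt, if_neg h'.le.not_gt, if_neg (mul_pos h h').le.not_gt]; decide

theorem intMulInduction {P : ℤ → Prop} (h1 : P 1) (hneg : P (-1))
    (hprime : ∀ q : ℕ, q.Prime → P q)
    (hmul : ∀ a b : ℤ, a ≠ 0 → b ≠ 0 → P a → P b → P (a * b)) {a : ℤ} (ha : a ≠ 0) : P a := by
  have hnat : ∀ n : ℕ, n ≠ 0 → P n := by
    intro n
    induction n using Nat.recOnMul with
    | zero => intro h; exact absurd rfl h
    | one => intro _; simpa using h1
    | prime q hq => intro _; exact hprime q hq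
    | mul x y hx hy =>
      intro h
      obtain ⟨hx0, hy0⟩ := mul_ne_zero_iff.mp h
      simpa using hmul x y (mod_cast hx0) (mod_cast hy0) (hx hx0) (hy hy0)
  rcases Int.natAbs_eq a with h | h <;> rw [h]
  · exact hnat _ (Int.natAbs_ne_zero.mpr ha)
  · rw [← neg_one_mul]
    exact hmul _ _ (by simp) (by simpa using ha) hneg (hnat _ (Int.natAbs_ne_zero.mpr ha))

/-- The property to prove. -/
def ProductFormula (a b : ℤ) : Prop :=
  ∑ᶠ p : Nat.Primes, symAt p a b = sgnBit a * sgnBit b

theorem productFormula_comm {a b : ℤ} (h : ProductFormula a b) : ProductFormula b a := by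
  unfold ProductFormula at h ⊢
  rw [finsum_congr fun p => symAt_comm p b a, h, mul_comm]

theorem productFormula_one (b : ℤ) : ProductFormula 1 b := by
  simp [ProductFormula, symAt_one_left, sgnBit]

theorem productFormula_mul {a a' b : ℤ} (ha : a ≠ 0) (ha' : a' ≠ 0) (hb : b ≠ 0)
    (h : ProductFormula a b) (h' : ProductFormula a' b) : ProductFormula (a * a') b := by
  unfold ProductFormula at h h' ⊢
  rw [finsum_congr fun p => symAt_mul_left p ha ha' b,
    finsum_add_distrib (symAt_support_finite ha hb) (symAt_support_finite ha' hb), h, h',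
    sgnBit_mul ha ha', add_mul]

theorem productFormula_of_sum {a b : ℤ} (s : Finset Nat.Primes)
    (hs : ∀ p : Nat.Primes, p ∉ s →
      (p : ℕ) ≠ 2 ∧ ¬ ((p : ℕ) : ℤ) ∣ a ∧ ¬ ((p : ℕ) : ℤ) ∣ b)
    (h : ∑ p ∈ s, symAt p a b = sgnBit a * sgnBit b) : ProductFormula a b := by
  unfold ProductFormula
  rw [finsum_eq_sum_of_support_subset _ (s := s), h]
  intro p hp
  by_contra hps
  obtain ⟨h1, h2, h3⟩ := hs p hps
  exact hp (symAt_eq_zero h1 h2 h3)

/-- A prime as an element of `Nat.Primes`. -/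
def mkPrime (q : ℕ) (hq : q.Prime) : Nat.Primes := ⟨q, hq⟩

/-- The prime `2`. -/
def primeTwo : Nat.Primes := ⟨2, Nat.prime_two⟩

theorem not_dvd_neg_one_nat {p : ℕ} (hp : p.Prime) : ¬ (p : ℤ) ∣ -1 := fun h =>
  hp.not_dvd_one (by exact_mod_cast dvd_neg.mp h)

theorem not_dvd_prime_of_ne {p q : ℕ} (hp : p.Prime) (hq : q.Prime) (h : p ≠ q) :
    ¬ (p : ℤ) ∣ (q : ℤ) := fun hd =>
  h ((Nat.prime_dvd_prime_iff_eq hp hq).mp (by exact_mod_cast hd))

theorem legBit_two {p : ℕ} [hp : Fact p.Prime] (h2 : p ≠ 2) : legBit p 2 = omegaBit p := by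
  have hodd : p % 2 = 1 := hp.out.eq_two_or_odd.resolve_left h2
  simp only [legBit, omegaBit, legendreSym.at_two h2, ZMod.χ₈_nat_eq_if_mod_eight]
  rcases (show p % 8 = 1 ∨ p % 8 = 3 ∨ p % 8 = 5 ∨ p % 8 = 7 by omega) with h | h | h | h <;>
    simp [hodd, h, show (p : ℤ) % 8 = ((p % 8 : ℕ) : ℤ) by omega]

theorem legBit_reciprocity {p q : ℕ} [hp : Fact p.Prime] [hq : Fact q.Prime] (hp2 : p ≠ 2)
    (hq2 : q ≠ 2) (hne : p ≠ q) :
    legBit p (q : ℤ) + legBit q (p : ℤ) = epsBit p * epsBit q := by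
  have hqp : ((q : ℤ) : ZMod p) ≠ 0 :=
    intCast_zmod_ne_zero (not_dvd_prime_of_ne hp.out hq.out hne)
  have hp' : p % 4 = 1 ∨ p % 4 = 3 := by
    have := hp.out.eq_two_or_odd.resolve_left hp2; omega
  have hq' : q % 4 = 1 ∨ q % 4 = 3 := by
    have := hq.out.eq_two_or_odd.resolve_left hq2; omega
  have e1 : (p : ℤ) % 4 = ((p % 4 : ℕ) : ℤ) := by omega
  have e2 : (q : ℤ) % 4 = ((q % 4 : ℕ) : ℤ) := by omega
  simp only [legBit, epsBit, e1, e2]
  rw [legendreSym.quadratic_reciprocity' (p := p) (q := q) hp2 hq2, pow_mul]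
  rcases legendreSym.eq_one_or_neg_one p hqp with h | h <;>
    rcases hp' with hp' | hp' <;> rcases hq' with hq' | hq' <;>
      simp [h, hp', hq', ZMod.neg_one_pow_div_two_of_one_mod_four,
        ZMod.neg_one_pow_div_two_of_three_mod_four] <;> decide

theorem epsBit_one : epsBit 1 = 0 := by decide

theorem epsBit_neg_one : epsBit (-1) = 1 := by decide

theorem symAt_mkPrime {q : ℕ} (hq : q.Prime) [Fact q.Prime] (h : q ≠ 2) (a b : ℤ) :
    symAt (mkPrime q hq) a b = symOdd q a b := if_neg h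

theorem productFormula_neg_neg : ProductFormula (-1) (-1) := by
  refine productFormula_of_sum {primeTwo} (fun p hp => ?_) ?_
  · simp only [Finset.mem_singleton] at hp
    exact ⟨fun h => hp (Subtype.ext h), not_dvd_neg_one_nat p.2, not_dvd_neg_one_nat p.2⟩
  · rw [Finset.sum_singleton, symAt_of_eq_two (p := primeTwo) rfl, symTwo,
      unitPart_of_not_dvd (not_dvd_neg_one_nat Nat.prime_two),
      padicValInt.eq_zero_of_not_dvd (not_dvd_neg_one_nat Nat.prime_two)]
    decide

theorem productFormula_neg_prime {q : ℕ} (hq : q.Prime) : ProductFormula (-1) q := by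
  haveI : Fact q.Prime := ⟨hq⟩
  have hs : sgnBit (q : ℤ) = 0 := if_neg (by omega)
  rw [ProductFormula, hs, mul_zero, ← mul_zero (sgnBit (-1)), ← hs]
  by_cases h2 : q = 2
  · subst h2
    refine productFormula_of_sum {primeTwo} (fun p hp => ?_) ?_
    · simp only [Finset.mem_singleton] at hp
      have h : (p : ℕ) ≠ 2 := fun h => hp (Subtype.ext h)
      exact ⟨h, not_dvd_neg_one_nat p.2, not_dvd_prime_of_ne p.2 hq h⟩
    · rw [Finset.sum_singleton, symAt_of_eq_two (p := primeTwo) rfl, symTwo,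
        unitPart_of_not_dvd (not_dvd_neg_one_nat Nat.prime_two),
        padicValInt.eq_zero_of_not_dvd (not_dvd_neg_one_nat Nat.prime_two),
        unitPart_self, padicValInt_self]
      decide
  · refine productFormula_of_sum {primeTwo, (mkPrime q hq)} (fun p hp => ?_) ?_
    · simp only [Finset.mem_insert, Finset.mem_singleton, not_or] at hp
      exact ⟨fun h => hp.1 (Subtype.ext h), not_dvd_neg_one_nat p.2,
        not_dvd_prime_of_ne p.2 hq fun h => hp.2 (Subtype.ext h)⟩
    · rw [Finset.sum_pair (show primeTwo ≠ mkPrime q hq from fun h =>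
              h2 (congrArg Subtype.val h).symm),
        symAt_of_eq_two (p := primeTwo) rfl, symAt_mkPrime hq h2, hs, mul_zero,
        symTwo, symOdd, unitPart_of_not_dvd (not_dvd_neg_one_nat Nat.prime_two),
        padicValInt.eq_zero_of_not_dvd (not_dvd_neg_one_nat Nat.prime_two),
        unitPart_of_not_dvd (not_dvd_neg_one_nat hq),
        padicValInt.eq_zero_of_not_dvd (not_dvd_neg_one_nat hq),
        unitPart_of_not_dvd (not_dvd_prime_of_ne Nat.prime_two hq (Ne.symm h2)),
        padicValInt.eq_zero_of_not_dvd (not_dvd_prime_of_ne Nat.prime_two hq (Ne.symm h2)),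
        padicValInt_self, legBit_neg_one h2, epsBit_neg_one]
      simp [zmod_two_add_self]

theorem productFormula_prime_prime {q r : ℕ} (hq : q.Prime) (hr : r.Prime) :
    ProductFormula q r := by
  haveI : Fact q.Prime := ⟨hq⟩
  haveI : Fact r.Prime := ⟨hr⟩
  have hsq : sgnBit (q : ℤ) = 0 := if_neg (by omega)
  rw [ProductFormula, hsq, zero_mul, ← zero_mul (sgnBit (r : ℤ)), ← hsq]
  by_cases hq2 : q = 2
  · subst hq2
    by_cases hr2 : r = 2
    · subst hr2
      refine productFormula_of_sum {primeTwo} (fun p hp => ?_) ?_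
      · simp only [Finset.mem_singleton] at hp
        have h : (p : ℕ) ≠ 2 := fun h => hp (Subtype.ext h)
        exact ⟨h, not_dvd_prime_of_ne p.2 hq h, not_dvd_prime_of_ne p.2 hq h⟩
      · rw [Finset.sum_singleton, symAt_of_eq_two (p := primeTwo) rfl, symTwo, unitPart_self,
          padicValInt_self]
        decide
    · refine productFormula_of_sum {primeTwo, (mkPrime r hr)} (fun p hp => ?_) ?_
      · simp only [Finset.mem_insert, Finset.mem_singleton, not_or] at hp
        have h : (p : ℕ) ≠ 2 := fun h => hp.1 (Subtype.ext h)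
        exact ⟨h, not_dvd_prime_of_ne p.2 hq h,
          not_dvd_prime_of_ne p.2 hr fun h => hp.2 (Subtype.ext h)⟩
      · rw [Finset.sum_pair (show primeTwo ≠ mkPrime r hr from fun h =>
              hr2 (congrArg Subtype.val h).symm),
          symAt_of_eq_two (p := primeTwo) rfl, symAt_mkPrime hr hr2, hsq, zero_mul,
          symTwo, symOdd, unitPart_self, padicValInt_self,
          unitPart_of_not_dvd (not_dvd_prime_of_ne hq hr (Ne.symm hr2)),
          padicValInt.eq_zero_of_not_dvd (not_dvd_prime_of_ne hq hr (Ne.symm hr2)),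
          unitPart_of_not_dvd (not_dvd_prime_of_ne hr hq hr2),
          padicValInt.eq_zero_of_not_dvd (not_dvd_prime_of_ne hr hq hr2),
          unitPart_self, padicValInt_self, epsBit_one]
        simp [legBit_two hr2, zmod_two_add_self]
  · by_cases hqr : q = r
    · subst hqr
      refine productFormula_of_sum {primeTwo, (mkPrime q hq)} (fun p hp => ?_) ?_
      · simp only [Finset.mem_insert, Finset.mem_singleton, not_or] at hp
        have h : (p : ℕ) ≠ q := fun h => hp.2 (Subtype.ext h)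
        exact ⟨fun h => hp.1 (Subtype.ext h), not_dvd_prime_of_ne p.2 hq h,
          not_dvd_prime_of_ne p.2 hq h⟩
      · rw [Finset.sum_pair (show primeTwo ≠ mkPrime q hq from fun h =>
              hq2 (congrArg Subtype.val h).symm),
          symAt_of_eq_two (p := primeTwo) rfl, symAt_mkPrime hq hq2, hsq, zero_mul,
          symTwo, symOdd, unitPart_self, padicValInt_self,
          unitPart_of_not_dvd (not_dvd_prime_of_ne Nat.prime_two hq (Ne.symm hq2)),
          padicValInt.eq_zero_of_not_dvd (not_dvd_prime_of_ne Nat.prime_two hq (Ne.symm hq2))]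
        simp only [legBit_one, Nat.cast_zero, Nat.cast_one, zero_mul, one_mul, add_zero]
        generalize epsBit (q : ℤ) = e
        revert e
        decide
    · by_cases hr2 : r = 2
      · subst hr2
        apply productFormula_comm
        refine productFormula_of_sum {primeTwo, (mkPrime q hq)} (fun p hp => ?_) ?_
        · simp only [Finset.mem_insert, Finset.mem_singleton, not_or] at hp
          have h : (p : ℕ) ≠ 2 := fun h => hp.1 (Subtype.ext h)
          exact ⟨h, not_dvd_prime_of_ne p.2 hr h,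
            not_dvd_prime_of_ne p.2 hq fun h => hp.2 (Subtype.ext h)⟩
        · rw [Finset.sum_pair (show primeTwo ≠ mkPrime q hq from fun h =>
              hq2 (congrArg Subtype.val h).symm),
            symAt_of_eq_two (p := primeTwo) rfl, symAt_mkPrime hq hq2, hsq, mul_zero,
            symTwo, symOdd, unitPart_self, padicValInt_self,
            unitPart_of_not_dvd (not_dvd_prime_of_ne hr hq (Ne.symm hq2)),
            padicValInt.eq_zero_of_not_dvd (not_dvd_prime_of_ne hr hq (Ne.symm hq2)),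
            unitPart_of_not_dvd (not_dvd_prime_of_ne hq hr hq2),
            padicValInt.eq_zero_of_not_dvd (not_dvd_prime_of_ne hq hr hq2),
            unitPart_self, padicValInt_self, epsBit_one]
          simp [legBit_two hq2, zmod_two_add_self]
      · refine productFormula_of_sum {primeTwo, (mkPrime q hq), mkPrime r hr} (fun p hp => ?_) ?_
        · simp only [Finset.mem_insert, Finset.mem_singleton, not_or] at hp
          exact ⟨fun h => hp.1 (Subtype.ext h),
            not_dvd_prime_of_ne p.2 hq fun h => hp.2.1 (Subtype.ext h),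
            not_dvd_prime_of_ne p.2 hr fun h => hp.2.2 (Subtype.ext h)⟩
        · have n1 : primeTwo ∉ ({(mkPrime q hq), mkPrime r hr} : Finset Nat.Primes) := by
            simp only [Finset.mem_insert, Finset.mem_singleton, not_or]
            exact ⟨fun h => hq2 (congrArg Subtype.val h).symm,
              fun h => hr2 (congrArg Subtype.val h).symm⟩
          rw [Finset.sum_insert n1, Finset.sum_pair (show mkPrime q hq ≠ mkPrime r hr from fun h => hqr (congrArg Subtype.val h)),
            symAt_of_eq_two (p := primeTwo) rfl, symAt_mkPrime hq hq2,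
            symAt_mkPrime hr hr2, hsq, zero_mul, symTwo, symOdd, symOdd,
            unitPart_of_not_dvd (not_dvd_prime_of_ne Nat.prime_two hq (Ne.symm hq2)),
            padicValInt.eq_zero_of_not_dvd (not_dvd_prime_of_ne Nat.prime_two hq (Ne.symm hq2)),
            unitPart_of_not_dvd (not_dvd_prime_of_ne Nat.prime_two hr (Ne.symm hr2)),
            padicValInt.eq_zero_of_not_dvd (not_dvd_prime_of_ne Nat.prime_two hr (Ne.symm hr2)),
            unitPart_of_not_dvd (not_dvd_prime_of_ne hq hr hqr),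
            padicValInt.eq_zero_of_not_dvd (not_dvd_prime_of_ne hq hr hqr),
            unitPart_of_not_dvd (not_dvd_prime_of_ne hr hq (Ne.symm hqr)),
            padicValInt.eq_zero_of_not_dvd (not_dvd_prime_of_ne hr hq (Ne.symm hqr)),
            padicValInt_self, padicValInt_self]
          simp only [Nat.cast_zero, Nat.cast_one, zero_mul, mul_zero, one_mul, zero_add, add_zero]
          rw [legBit_reciprocity hq2 hr2 hqr, zmod_two_add_self]

/-- **Product formula**: the local symbols add up to the real one. -/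
theorem sum_symbols {a b : ℤ} (ha : a ≠ 0) (hb : b ≠ 0) :
    ∑ᶠ p : Nat.Primes, symAt p a b = sgnBit a * sgnBit b := by
  refine intMulInduction (P := fun a => ∀ b : ℤ, b ≠ 0 → ProductFormula a b)
    (fun b _ => productFormula_one b) ?_ ?_ ?_ ha b hb
  · intro b hb
    refine productFormula_comm (intMulInduction (P := fun b => ProductFormula b (-1))
      (productFormula_one _) productFormula_neg_neg
      (fun q hq => productFormula_comm (productFormula_neg_prime hq))
      (fun x y hx hy h h' => productFormula_mul hx hy (by simp) h h') hb)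
  · intro q hq b hb
    refine productFormula_comm (intMulInduction (P := fun b => ProductFormula b q)
      (productFormula_one _) (productFormula_neg_prime hq)
      (fun r hr => productFormula_prime_prime hr hq)
      (fun x y hx hy h h' => productFormula_mul hx hy (mod_cast hq.ne_zero) h h') hb)
  · intro x y hx hy h h' b hb
    exact productFormula_mul hx hy hb (h b hb) (h' b hb)

theorem isotropic_iff_symAt (p : Nat.Primes) [Fact (p : ℕ).Prime] {a b : ℤ}
    (ha : a ≠ 0) (hb : b ≠ 0) :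
    Isotropic ℚ_[(p : ℕ)] (a : ℚ_[(p : ℕ)]) b (-1) ↔ symAt p a b = 0 := by
  by_cases h : (p : ℕ) = 2
  · obtain ⟨n, hn⟩ := p
    obtain rfl : n = 2 := h
    rw [symAt_of_eq_two rfl]
    exact isotropic_two_iff a b ha hb
  · rw [symAt_of_ne_two h]
    exact isotropic_odd_iff h ha hb

theorem isotropic_real_iff {a b : ℤ} (ha : a ≠ 0) (hb : b ≠ 0) :
    Isotropic ℝ (a : ℝ) b (-1) ↔ sgnBit a * sgnBit b = 0 := by
  rcases lt_or_gt_of_ne ha with h | h
  · rcases lt_or_gt_of_ne hb with h' | h'
    · rw [sgnBit, sgnBit, if_pos h, if_pos h']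
      refine iff_of_false ?_ (by decide)
      rintro ⟨x, y, z, hne, he⟩
      have h1 : (a : ℝ) < 0 := Int.cast_lt_zero.mpr h
      have h3 : (b : ℝ) < 0 := Int.cast_lt_zero.mpr h'
      have hx : x ^ 2 = 0 := by nlinarith [sq_nonneg x, sq_nonneg y, sq_nonneg z]
      have hy : y ^ 2 = 0 := by nlinarith [sq_nonneg x, sq_nonneg y, sq_nonneg z]
      have hz : z ^ 2 = 0 := by nlinarith [sq_nonneg x, sq_nonneg y, sq_nonneg z]
      simp_all
    · refine iff_of_true ⟨0, 1, √(b : ℝ), by simp, ?_⟩ (by simp [sgnBit, h'.le.not_gt])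
      rw [Real.sq_sqrt (by exact_mod_cast h'.le)]
      ring
  · refine iff_of_true ⟨1, 0, √(a : ℝ), by simp, ?_⟩ (by simp [sgnBit, h.le.not_gt])
    rw [Real.sq_sqrt (by exact_mod_cast h.le)]
    ring

theorem isotropic_rat_iff {F : Type*} [Field F] [CharZero F] (a b c : ℚ) (hc : c ≠ 0) :
    Isotropic F (a : F) (b : F) (c : F) ↔
      Isotropic F (((-a / c).num * (-a / c).den : ℤ) : F)
        (((-b / c).num * (-b / c).den : ℤ) : F) (-1) := by
  have key : ∀ q : ℚ, (q : F) = ((q.num * q.den : ℤ) : F) * ((q.den : F)⁻¹) ^ 2 := fun q => by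
    have : (q.den : F) ≠ 0 := Nat.cast_ne_zero.mpr q.den_ne_zero
    push_cast
    conv_lhs => rw [Rat.cast_def]
    field_simp
  have hc' : (c : F) ≠ 0 := Rat.cast_ne_zero.mpr hc
  rw [← isotropic_smul_iff (k := -(c : F)⁻¹) (by simpa using hc') (a : F) b c,
    ← isotropic_mul_sq_iff (s := ((-a / c).den : F)⁻¹) (t := ((-b / c).den : F)⁻¹) (r := 1)
      (by simp) (by simp) one_ne_zero (((-a / c).num * (-a / c).den : ℤ) : F)
      (((-b / c).num * (-b / c).den : ℤ) : F) (-1),
    ← key, ← key, one_pow, mul_one]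
  push_cast
  rw [show -(c : F)⁻¹ * (a : F) = -(a : F) / c by ring,
    show -(c : F)⁻¹ * (b : F) = -(b : F) / c by ring,
    show -(c : F)⁻¹ * (c : F) = -1 by field_simp]

theorem num_mul_den_ne_zero {q : ℚ} (hq : q ≠ 0) : q.num * q.den ≠ 0 :=
  mul_ne_zero (Rat.num_ne_zero.mpr hq) (by exact_mod_cast q.den_ne_zero)

/-- **Parity of the anisotropic places of a ternary form over `ℚ`.** -/
theorem even_anisotropic (a b c : ℚ) (ha : a ≠ 0) (hb : b ≠ 0)
    (hc : c ≠ 0) :
    {p : Nat.Primes | haveI : Fact (p : ℕ).Prime := ⟨p.2⟩;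
        ¬ Isotropic ℚ_[(p : ℕ)] (a : ℚ_[(p : ℕ)]) b c}.Finite ∧
      (Even {p : Nat.Primes | haveI : Fact (p : ℕ).Prime := ⟨p.2⟩;
          ¬ Isotropic ℚ_[(p : ℕ)] (a : ℚ_[(p : ℕ)]) b c}.ncard ↔
        Isotropic ℝ (a : ℝ) b c) := by
  set n : ℤ := (-a / c).num * (-a / c).den with hn
  set m : ℤ := (-b / c).num * (-b / c).den with hm
  have hn0 : n ≠ 0 := num_mul_den_ne_zero (by simp [ha, hc])
  have hm0 : m ≠ 0 := num_mul_den_ne_zero (by simp [hb, hc])
  have hset : {p : Nat.Primes | haveI : Fact (p : ℕ).Prime := ⟨p.2⟩;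
      ¬ Isotropic ℚ_[(p : ℕ)] (a : ℚ_[(p : ℕ)]) b c} =
      Function.support fun p : Nat.Primes => symAt p n m := by
    ext p
    haveI : Fact (p : ℕ).Prime := ⟨p.2⟩
    simp only [Set.mem_ofPred_eq, Function.mem_support, ne_eq]
    rw [isotropic_rat_iff a b c hc, isotropic_iff_symAt p hn0 hm0]
  have hfin := symAt_support_finite hn0 hm0
  rw [hset]
  refine ⟨hfin, ?_⟩
  rw [isotropic_rat_iff a b c hc, isotropic_real_iff hn0 hm0, ← sum_symbols hn0 hm0,
    finsum_eq_sum _ hfin,
    Finset.sum_congr rfl (g := fun _ => (1 : ZMod 2)) (fun p hp =>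
      zmod_two_eq_one (by simpa using hp)),
    Finset.sum_const, nsmul_one, ZMod.natCast_eq_zero_iff_even,
    Set.ncard_eq_toFinset_card _ hfin]

/-- Rational forms with coefficients of norm `1` are isotropic at an odd prime. -/
theorem isotropic_of_padic_units {p : ℕ} [hp : Fact p.Prime] (h2 : p ≠ 2) {a b c : ℚ}
    (ha : ‖(a : ℚ_[p])‖ = 1) (hb : ‖(b : ℚ_[p])‖ = 1) (hc : ‖(c : ℚ_[p])‖ = 1) :
    Isotropic ℚ_[p] (a : ℚ_[p]) b c := by
  have key : ∀ q : ℚ, ‖(q : ℚ_[p])‖ = 1 → ¬ (p : ℤ) ∣ q.num * q.den := by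
    intro q hq hd
    have hden : (q.den : ℚ_[p]) ≠ 0 := Nat.cast_ne_zero.mpr q.den_ne_zero
    rw [Rat.cast_def, norm_div, div_eq_one_iff_eq (norm_ne_zero_iff.mpr hden)] at hq
    have hboth : (p : ℤ) ∣ q.num ∧ (p : ℤ) ∣ (q.den : ℤ) := by
      have e : ((q.den : ℤ) : ℚ_[p]) = (q.den : ℚ_[p]) := Int.cast_natCast _
      rw [← Padic.norm_intCast_lt_one_iff, ← Padic.norm_intCast_lt_one_iff, e, ← hq, and_self]
      rcases (Nat.prime_iff_prime_int.mp hp.out).dvd_mul.mp hd with h | h
      · exact Padic.norm_intCast_lt_one_iff.mpr h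
      · rw [hq, ← e]; exact Padic.norm_intCast_lt_one_iff.mpr h
    exact hp.out.not_dvd_one (q.reduced.gcd_eq_one ▸
      Nat.dvd_gcd (Int.natCast_dvd.mp hboth.1) (by exact_mod_cast hboth.2))
  have hc0 : c ≠ 0 := by rintro rfl; simp at hc
  rw [isotropic_rat_iff a b c hc0]
  have h1 : ∀ x : ℚ, ‖(x : ℚ_[p])‖ = 1 → ¬ (p : ℤ) ∣ (-x / c).num * (-x / c).den :=
    fun x hx => key _ (by simp [hx, hc])
  simpa using isotropic_of_units h2 (h1 a ha) (h1 b hb) (c := -1)
    (fun h => hp.out.not_dvd_one (by exact_mod_cast dvd_neg.mp h))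

end Fermat.Agent.TwoAdic.CFT
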